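import Mathlib
import Fermat.Agent.LT.T6.H438.HasseQ3

/-!
# Row LT, tower T6, leaf T6.00q.1 `QuadGenC438` (helper157, OFF-MAIN)

A quadratic number field is `ℚ(√d)` with `d ≠ 1` a squarefree integer
(Spec: `Fermat/Agent/LT/T6/H438/HasseQ3.lean` of helper438, byte copy).
-/

set_option autoImplicit false

namespace Fermat.Agent.LT.T6.H157

/-- In a quadratic extension `L/ℚ` there is an element outside `ℚ`. -/
theorem exists_not_mem_range_quad157 (L : Type) [Field L] [NumberField L]
    (hL : Module.finrank ℚ L = 2) : ∃ x : L, x ∉ (algebraMap ℚ L).range := by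
  by_contra h0
  have h : ∀ x : L, x ∈ (algebraMap ℚ L).range := fun x =>
    Classical.byContradiction (fun hx => h0 ⟨x, hx⟩)
  have hbt : (⊥ : Subalgebra ℚ L) = ⊤ := by
    refine eq_top_iff.2 (fun x _ => ?_)
    obtain ⟨q, hq⟩ := h x
    exact Algebra.mem_bot.2 ⟨q, hq⟩
  have h1 : Module.finrank ℚ L = 1 := Subalgebra.bot_eq_top_iff_finrank_eq_one.1 hbt
  omega

/-- An element `x` of a quadratic extension `L/ℚ` outside `ℚ` satisfies a monic quadratic
equation over `ℚ`. -/
theorem exists_quad_relation157 (L : Type) [Field L] [NumberField L]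
    (hL : Module.finrank ℚ L = 2) (x : L) (hx : x ∉ (algebraMap ℚ L).range) :
    ∃ b c : ℚ, x ^ 2 + (b : L) * x + (c : L) = 0 := by
  have hint : IsIntegral ℚ x := Algebra.IsIntegral.isIntegral x
  have h2 : 2 ≤ (minpoly ℚ x).natDegree := (minpoly.two_le_natDegree_iff hint).2 hx
  have hle : (minpoly ℚ x).natDegree ≤ 2 := hL ▸ minpoly.natDegree_le x
  have hdeg : (minpoly ℚ x).natDegree = 2 := le_antisymm hle h2
  have hmonic : (minpoly ℚ x).Monic := minpoly.monic hint
  have hc2 : (minpoly ℚ x).coeff 2 = 1 := by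
    have := hmonic.coeff_natDegree
    rwa [hdeg] at this
  have hev : Polynomial.aeval x (minpoly ℚ x) = 0 := minpoly.aeval ℚ x
  rw [Polynomial.aeval_eq_sum_range, hdeg] at hev
  simp only [Finset.sum_range_succ, Finset.sum_range_zero, zero_add, pow_zero, pow_one, hc2,
    one_smul] at hev
  refine ⟨(minpoly ℚ x).coeff 1, (minpoly ℚ x).coeff 0, ?_⟩
  rw [Algebra.smul_def, Algebra.smul_def, eq_ratCast, eq_ratCast, mul_one] at hev
  linear_combination hev

/-- **T6.00q.1 `QuadGenC438`.**  A quadratic field is `ℚ(√d)`, `d ≠ 1` a squarefree integer. -/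
theorem quadGenC157 : Fermat.Agent.LT.T6.H438.QuadGenC438 := by
  intro L _ _ hL
  obtain ⟨x, hx⟩ := exists_not_mem_range_quad157 L hL
  obtain ⟨b, c, hbc⟩ := exists_quad_relation157 L hL x hx
  -- a rational multiple of an element of `ℚ` plus ... : `x ∈ ℚ` as soon as `2x + b ∈ ℚ`
  have hxq : ∀ r : ℚ, 2 * x + (b : L) ≠ (r : L) := by
    intro r hr
    apply hx
    refine ⟨(r - b) / 2, ?_⟩
    rw [eq_ratCast]
    push_cast
    linear_combination (-1 / 2 : L) * hr
  set y : L := 2 * x + (b : L) with hy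
  set D : ℚ := b ^ 2 - 4 * c with hD
  have hyD : y ^ 2 = (D : L) := by
    rw [hy, hD]
    push_cast
    linear_combination 4 * hbc
  have hD0 : D ≠ 0 := by
    intro h0
    rw [h0, Rat.cast_zero] at hyD
    have : y = 0 := by simpa using hyD
    exact hxq 0 (by rw [this, Rat.cast_zero])
  -- the integer `N = num * den`
  set N : ℤ := D.num * (D.den : ℤ) with hN
  have hden0 : (D.den : ℤ) ≠ 0 := by exact_mod_cast D.den_nz
  have hnum0 : D.num ≠ 0 := Rat.num_ne_zero.2 hD0
  have hN0 : N ≠ 0 := mul_ne_zero hnum0 hden0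
  have hdenL : ((D.den : ℤ) : L) ≠ 0 := by exact_mod_cast D.den_nz
  have hDL : (D : L) = ((D.num : ℤ) : L) / ((D.den : ℤ) : L) := by
    conv_lhs => rw [← Rat.num_div_den D]
    push_cast
    rfl
  have hyN : (((D.den : ℤ) : L) * y) ^ 2 = ((N : ℤ) : L) := by
    rw [mul_pow, hyD, hDL, hN]
    push_cast
    field_simp
  -- squarefree part
  obtain ⟨a, s, hsa, hasf⟩ := Nat.sq_mul_squarefree N.natAbs
  have hs0 : s ≠ 0 := by
    rintro rfl
    have : N.natAbs = 0 := by rw [← hsa]; simp
    exact hN0 (Int.natAbs_eq_zero.1 this)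
  have hsL : ((s : ℕ) : L) ≠ 0 := by exact_mod_cast hs0
  refine ⟨N.sign * (a : ℤ), ?_, ?_, ((D.den : ℤ) : L) * y / (s : L), ?_⟩
  · -- squarefree
    rw [← Int.squarefree_natAbs, Int.natAbs_mul, Int.natAbs_sign_of_ne_zero hN0, one_mul,
      Int.natAbs_natCast]
    exact hasf
  · -- `d ≠ 1`
    intro h1
    have hNeq : N = (s : ℤ) ^ 2 := by
      have h2 : N = N.sign * (N.natAbs : ℤ) := (Int.sign_mul_natAbs N).symm
      rw [h2, ← hsa]
      push_cast
      linear_combination ((s : ℤ) ^ 2) * h1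
    have hsq : (((D.den : ℤ) : L) * y) ^ 2 = ((s : ℕ) : L) ^ 2 := by
      rw [hyN, hNeq]
      push_cast
      rfl
    rcases sq_eq_sq_iff_eq_or_eq_neg.1 hsq with h | h
    · refine hxq ((s : ℚ) / (D.den : ℚ)) ?_
      push_cast
      have hdq : ((D.den : ℕ) : L) ≠ 0 := by exact_mod_cast D.den_nz
      field_simp
      have : ((D.den : ℤ) : L) = ((D.den : ℕ) : L) := by push_cast; rfl
      rw [this] at h
      linear_combination h
    · refine hxq (-(s : ℚ) / (D.den : ℚ)) ?_
      push_cast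
      have hdq : ((D.den : ℕ) : L) ≠ 0 := by exact_mod_cast D.den_nz
      field_simp
      have : ((D.den : ℤ) : L) = ((D.den : ℕ) : L) := by push_cast; rfl
      rw [this] at h
      linear_combination h
  · -- `δ ^ 2 = d`
    rw [div_pow, hyN]
    have h2 : N = N.sign * (N.natAbs : ℤ) := (Int.sign_mul_natAbs N).symm
    have h3 : ((N : ℤ) : L) = ((N.sign * (a : ℤ) : ℤ) : L) * ((s : ℕ) : L) ^ 2 := by
      conv_lhs => rw [h2, ← hsa]
      push_cast
      ring
    rw [h3]
    field_simp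

end Fermat.Agent.LT.T6.H157
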